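import Fermat.Agent.S18.H264.SepLaurent

/-!
# S18 / G-SEP bridge (helper264): from separability of the residue field to the field
`separable` of `Alg.GoodModel`

Mathlib-only, abstract.  Setting: `Ω` a field, `R ≤ V` subrings, `x ∈ V`, `w ∈ Ω`,
`ρ : R →+* κ` surjective (residue map of `R`), `red : V →+* L` (reduction of `q`-expansions,
`L = κ((q))`) compatible with `ρ`, with `ker red ⊆ w V` and `V ∖ ker red ⊆ Vˣ`.

* `exists_lift_simple_root` : a polynomial `P̄ ∈ κ[X][Y]` with `P̄(x̄, f̄) = 0`,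
  `(∂P̄/∂Y)(x̄, f̄) ≠ 0` lifts to `P ∈ R[x][Y] ⊆ Ω[Y]` with `P(f)/w ∈ V`, `P'(f) ∈ Vˣ`.
* `goodModel_separable_of_red` : the field `separable` of `Alg.GoodModel` (stated with
  `Subring.closure (R ∪ {x})`, which is `Alg.polyRing R x` unfolded), for `L = κ((q))`,
  `κ` perfect of characteristic `p`, `p ∤ ord_q (red x)`, `red f` algebraic over `κ(red x)`.
-/

set_option autoImplicit false

namespace Fermat.Agent.S18.H264

open Polynomial

section Lift

variable {Ω κ L : Type*} [Field Ω] [Field κ] [Field L] [Algebra κ L]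

/-- The value at `x` of a polynomial with coefficients in `R` lies in `R[x]`. -/
theorem eval₂_subtype_mem_closure (R : Subring Ω) (x : Ω) (g : Polynomial R) :
    Polynomial.eval₂ R.subtype x g ∈ Subring.closure ((R : Set Ω) ∪ {x}) := by
  rw [eval₂_eq_sum_range]
  refine sum_mem fun i _ => ?_
  have h1 : ((g.coeff i : R) : Ω) ∈ Subring.closure ((R : Set Ω) ∪ {x}) :=
    Subring.subset_closure (Set.mem_union_left _ (g.coeff i).2)
  have h2 : x ∈ Subring.closure ((R : Set Ω) ∪ {x}) :=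
    Subring.subset_closure (Set.mem_union_right _ (Set.mem_singleton x))
  exact mul_mem h1 (pow_mem h2 _)

/-- Lifting a simple root equation from the residue field. -/
theorem exists_lift_simple_root (R V : Subring Ω) (x w : Ω) (hRV : R ≤ V) (hx : x ∈ V)
    (ρ : R →+* κ) (hρ : Function.Surjective ρ) (red : V →+* L)
    (hcompat : ∀ r : R, red ⟨r, hRV r.2⟩ = algebraMap κ L (ρ r))
    (hker : ∀ f : V, red f = 0 → (f : Ω) * w⁻¹ ∈ V)
    (hunit : ∀ f : V, red f ≠ 0 → (f : Ω)⁻¹ ∈ V)
    (f : V) (Pbar : Polynomial (Polynomial κ))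
    (h0 : Pbar.eval₂ (aeval (red ⟨x, hx⟩) : Polynomial κ →ₐ[κ] L).toRingHom (red f) = 0)
    (h1 : (derivative Pbar).eval₂
      (aeval (red ⟨x, hx⟩) : Polynomial κ →ₐ[κ] L).toRingHom (red f) ≠ 0) :
    ∃ P : Polynomial Ω, (∀ i, P.coeff i ∈ Subring.closure ((R : Set Ω) ∪ {x})) ∧
      P.eval (f : Ω) * w⁻¹ ∈ V ∧ (derivative P).eval (f : Ω) ≠ 0 ∧
      ((derivative P).eval (f : Ω))⁻¹ ∈ V := by
  obtain ⟨Pt, hPt⟩ := Polynomial.map_surjective (Polynomial.mapRingHom ρ)
    (Polynomial.map_surjective ρ hρ) Pbar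
  -- evaluation `R[X] → V`, `X ↦ x`
  set ev : Polynomial R →+* V := Polynomial.eval₂RingHom (Subring.inclusion hRV) ⟨x, hx⟩ with hev
  have hevval : ∀ g : Polynomial R, ((ev g : V) : Ω) = Polynomial.eval₂ R.subtype x g := by
    intro g
    rw [hev, coe_eval₂RingHom]
    have h := Polynomial.hom_eval₂ g (Subring.inclusion hRV) V.subtype ⟨x, hx⟩
    have hc : V.subtype.comp (Subring.inclusion hRV) = R.subtype := RingHom.ext fun _ => rfl
    rw [hc] at h
    exact h
  have hcomp : red.comp ev =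
      ((aeval (red ⟨x, hx⟩) : Polynomial κ →ₐ[κ] L).toRingHom).comp (Polynomial.mapRingHom ρ) := by
    refine Polynomial.ringHom_ext (fun r => ?_) ?_
    · simp only [RingHom.comp_apply, hev, coe_eval₂RingHom, eval₂_C, coe_mapRingHom, map_C,
        AlgHom.toRingHom_eq_coe, RingHom.coe_coe, aeval_C]
      exact hcompat r
    · simp only [RingHom.comp_apply, hev, coe_eval₂RingHom, eval₂_X, coe_mapRingHom, map_X,
        AlgHom.toRingHom_eq_coe, RingHom.coe_coe, aeval_X]
  set PV : Polynomial V := Pt.map ev with hPV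
  have hredP : ∀ Q : Polynomial (Polynomial R),
      red ((Q.map ev).eval f) =
        (Q.map (Polynomial.mapRingHom ρ)).eval₂
          (aeval (red ⟨x, hx⟩) : Polynomial κ →ₐ[κ] L).toRingHom (red f) := by
    intro Q
    rw [← Polynomial.eval₂_hom, Polynomial.eval₂_map, Polynomial.eval₂_map, eval₂_eq_eval_map,
      eval₂_eq_eval_map, ← Polynomial.map_map, ← hcomp, Polynomial.map_map]
  refine ⟨PV.map V.subtype, ?_, ?_, ?_⟩
  · intro i
    rw [coeff_map, hPV, coeff_map]
    show ((ev (Pt.coeff i) : V) : Ω) ∈ _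
    rw [hevval]
    exact eval₂_subtype_mem_closure R x _
  · have hval : (PV.map V.subtype).eval (f : Ω) = ((PV.eval f : V) : Ω) := by
      rw [eval_map]
      exact (Polynomial.hom_eval₂ PV (RingHom.id V) V.subtype f).symm ▸ by
        simp [eval₂_eq_eval_map]
    rw [hval]
    apply hker
    rw [hPV, hredP, hPt]
    exact h0
  · have hval : (derivative (PV.map V.subtype)).eval (f : Ω) =
        ((((derivative Pt).map ev).eval f : V) : Ω) := by
      rw [derivative_map, eval_map, hPV, ← derivative_map]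
      exact (Polynomial.hom_eval₂ _ (RingHom.id V) V.subtype f).symm ▸ by
        simp [eval₂_eq_eval_map]
    have hne : red (((derivative Pt).map ev).eval f) ≠ 0 := by
      rw [hredP, ← derivative_map, hPt]
      exact h1
    rw [hval]
    refine ⟨?_, hunit _ hne⟩
    intro h
    apply hne
    have : ((derivative Pt).map ev).eval f = 0 := Subtype.ext h
    rw [this, map_zero]

end Lift

section GoodModel

variable {Ω κ : Type*} [Field Ω] [Field κ] [PerfectField κ] (p : ℕ) [hp : Fact p.Prime]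
  [CharP κ p]

/-- **The field `separable` of `Alg.GoodModel`** from a reduction map to `κ((q))`.
`R ≤ V` subrings of `Ω`, `ρ : R →+* κ` onto a perfect field of characteristic `p`,
`red : V →+* κ((q))` compatible with `ρ`, `ker red ⊆ w V`, `V ∖ ker red ⊆ Vˣ`,
`p ∤ ord_q (red x)`, every `red f` algebraic over `κ(red x)`.
The conclusion is literally the field `separable` (with `Alg.polyRing R x` unfolded). -/
theorem goodModel_separable_of_red (R V : Subring Ω) (x w : Ω) (hRV : R ≤ V) (hx : x ∈ V)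
    (ρ : R →+* κ) (hρ : Function.Surjective ρ) (red : V →+* LaurentSeries κ)
    (hcompat : ∀ r : R, red ⟨r, hRV r.2⟩ = algebraMap κ (LaurentSeries κ) (ρ r))
    (hker : ∀ f : V, red f = 0 → (f : Ω) * w⁻¹ ∈ V)
    (hunit : ∀ f : V, red f ≠ 0 → (f : Ω)⁻¹ ∈ V)
    (hord : ¬ (p : ℤ) ∣ (red ⟨x, hx⟩).order)
    (halg : ∀ f : V, IsAlgebraic (IntermediateField.adjoin κ {red ⟨x, hx⟩}) (red f)) :
    ∀ f ∈ V, ∃ P : Polynomial Ω, (∀ i, P.coeff i ∈ Subring.closure ((R : Set Ω) ∪ {x})) ∧
      P.eval f * w⁻¹ ∈ V ∧ (derivative P).eval f ≠ 0 ∧ ((derivative P).eval f)⁻¹ ∈ V := by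
  intro f hf
  obtain ⟨Pbar, h0, h1⟩ :=
    exists_bivariate_simple_root_laurent p (red ⟨x, hx⟩) (red ⟨f, hf⟩) hord (halg ⟨f, hf⟩)
  exact exists_lift_simple_root R V x w hRV hx ρ hρ red hcompat hker hunit ⟨f, hf⟩ Pbar h0 h1

end GoodModel

end Fermat.Agent.S18.H264
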